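import Mathlib.Algebra.Polynomial.Splits
import Mathlib.NumberTheory.ModularForms.CuspFormSubmodule
import Mathlib.Topology.Algebra.Polynomial
import Mathlib.FieldTheory.Minpoly.IsIntegrallyClosed
import Mathlib.NumberTheory.DirichletCharacter.Basic
import Mathlib.NumberTheory.MulChar.Duality
import Fermat.Prelude.Thm_ModularForm_sturm_bound_of_isArithmetic
import Fermat.Agent.DeligneSerre.Rankin.Conjugation
import Fermat.Agent.DeligneSerre.WeightOne

/-!
# The conjugates of a weight one eigenform are finite in number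

Eigenforms of weight one with distinct eigensystems are linearly independent in a finite
dimensional space, so the systems `τ (a_p)`, `τ` an automorphism of `ℂ`, are finite in number.
In particular the degrees of the `a_p` are bounded.
-/

set_option autoImplicit false

noncomputable section

open UpperHalfPlane CongruenceSubgroup Polynomial
open scoped Classical MatrixGroups

namespace Fermat.Agent.DeligneSerre

variable {N : ℕ} [NeZero N]

/-- The coefficient functional on weight one cusp forms. -/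
private def qCoeffOne (n : ℕ) : CuspForm (Gamma1 N) 1 →ₗ[ℂ] ℂ where
  toFun f := ModularFormClass.qCoeff f n
  map_add' f g := by
    simp only [ModularFormClass.qCoeff, FunLike.coe_add, map_add,
      ModularForm.qExpansion_add one_pos
        (show (1 : ℝ) ∈ (Gamma1 N : Subgroup (GL (Fin 2) ℝ)).strictPeriods by simp) f g]
  map_smul' c f := by
    simp only [ModularFormClass.qCoeff, FunLike.coe_smul, PowerSeries.coeff_smul,
      ModularForm.qExpansion_smul one_pos
        (show (1 : ℝ) ∈ (Gamma1 N : Subgroup (GL (Fin 2) ℝ)).strictPeriods by simp) c f,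
      RingHom.id_apply]

/-- Weight one cusp forms on `Γ₁(N)` form a finite dimensional space. -/
lemma finite_cuspForm_one : Module.Finite ℂ (CuspForm (Gamma1 N) 1) := by
  set 𝒢 : Subgroup (GL (Fin 2) ℝ) := (Gamma1 N : Subgroup (GL (Fin 2) ℝ))
  set b : ℕ := ((1 : ℤ) * 𝒢.relIndex 𝒮ℒ).toNat / 12 with hb
  let φ : CuspForm (Gamma1 N) 1 →ₗ[ℂ] Fin (b + 1) → ℂ := LinearMap.pi fun i ↦ qCoeffOne (i : ℕ)
  refine Module.Finite.of_injective φ (LinearMap.ker_eq_bot.mp ?_)
  rw [LinearMap.ker_eq_bot']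
  intro f hf
  refine CuspForm.toModularFormₗ_injective ?_
  rw [map_zero]
  refine ModularForm.sturm_bound_of_isArithmetic (show (1 : ℝ) ∈ 𝒢.strictPeriods by simp [𝒢]) ?_
  rw [← hb]
  refine lt_of_lt_of_le (Nat.cast_lt.mpr (Nat.lt_succ_self b))
    (PowerSeries.nat_le_order _ _ fun i hi ↦ ?_)
  exact congr_fun hf ⟨i, hi⟩

/-- Sequences which are eigenvectors of the same Hecke operators with distinct systems of
eigenvalues, normalised at `1`, are linearly independent. -/
lemma linearIndependent_of_hecke {ι κ : Type*} (P : κ → ℕ) (e : κ → ℂ) (a : ι → κ → ℂ)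
    (c : ι → ℕ → ℂ) (h1 : ∀ i, c i 1 = 1)
    (hrel : ∀ i k n, c i (P k * n) + e k * (if P k ∣ n then c i (n / P k) else 0) = a i k * c i n)
    (hinj : Function.Injective a) : LinearIndependent ℂ c := by
  rw [linearIndependent_iff']
  intro s
  induction s using Finset.strongInduction with
  | _ s ih =>
    intro g hg i hi
    by_cases hs : ∃ j ∈ s, j ≠ i
    · obtain ⟨j, hj, hji⟩ := hs
      obtain ⟨k, hk⟩ := Function.ne_iff.mp (fun h ↦ hji (hinj h) : a j ≠ a i)
      have hg' : ∑ l ∈ s.erase j, (g l * (a l k - a j k)) • c l = 0 := by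
        funext n
        have e1 : ∀ m, ∑ l ∈ s, g l * c l m = 0 := fun m ↦ by
          simpa [Finset.sum_apply] using congr_fun hg m
        rw [Finset.sum_apply, Pi.zero_apply, Finset.sum_erase _ (by simp)]
        simp only [Pi.smul_apply, smul_eq_mul, mul_assoc, sub_mul, mul_sub]
        simp only [← hrel, mul_add, Finset.sum_sub_distrib, Finset.sum_add_distrib, e1, zero_add]
        simp only [← mul_assoc, mul_comm _ (a j k)]
        simp only [mul_assoc, ← Finset.mul_sum, e1, mul_zero, sub_zero]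
        split_ifs with hd
        · simp only [mul_left_comm _ (e k), ← Finset.mul_sum, e1, mul_zero]
        · simp
      have := ih _ (Finset.erase_ssubset hj) _ hg' i (Finset.mem_erase.mpr ⟨hji.symm, hi⟩)
      exact (mul_eq_zero.mp this).resolve_right (sub_ne_zero.mpr (Ne.symm hk))
    · push Not at hs
      have := congr_fun hg 1
      rw [Finset.sum_apply, Finset.sum_eq_single i (fun j hj hji ↦ absurd (hs j hj) hji)
        (fun h ↦ absurd hi h)] at this
      simpa [h1] using this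

/-- The systems `τ (a_p)` are finite in number. -/
theorem IsWeightOneEigen.exists_finset_conjugations {ε : DirichletCharacter ℂ N}
    {f : CuspForm (Gamma1 N) 1} (hf : IsWeightOneEigen ε f) :
    ∃ T : Finset (ℂ ≃+* ℂ), T.Nonempty ∧ ∀ τ : ℂ ≃+* ℂ, ∃ τ₀ ∈ T, ∀ p : ℕ, p.Prime → ¬ p ∣ N →
      τ (ModularFormClass.qCoeff f p) = τ₀ (ModularFormClass.qCoeff f p) := by
  haveI := finite_cuspForm_one (N := N)
  choose g hg hgq using hf.exists_conjugate
  let κ := {p : ℕ // p.Prime ∧ ¬ p ∣ N}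
  let sys : (ℂ ≃+* ℂ) → κ → ℂ := fun τ p ↦ τ (ModularFormClass.qCoeff f p.1)
  have hfin : (Set.range sys).Finite := by
    have : Finite (DirichletCharacter ℂ N) := inferInstance
    refine Set.Finite.subset (Set.finite_iUnion fun χ : DirichletCharacter ℂ N ↦ ?_)
      (s := ⋃ χ : DirichletCharacter ℂ N,
        sys '' {τ | ε.ringHomComp (τ : ℂ →+* ℂ) = χ}) ?_
    · set W := sys '' {τ | ε.ringHomComp (τ : ℂ →+* ℂ) = χ}
      choose t ht hts using fun v : W ↦ v.2
      have hli : LinearIndependent ℂ (fun v : W ↦ g (t v)) := by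
        refine LinearIndependent.of_comp (LinearMap.pi qCoeffOne) ?_
        refine linearIndependent_of_hecke (fun p : κ ↦ p.1) (fun p : κ ↦ χ (p.1 : ZMod N))
          (fun v ↦ v.1) _ (fun v ↦ (hg (t v)).1) (fun v p n ↦ ?_) Subtype.val_injective
        have := (hg (t v)).2 p.1 p.2.1 p.2.2 n
        rw [ht v, hgq (t v) p.1] at this
        rw [← hts v]
        exact this
      haveI : Finite W := hli.finite
      exact Set.toFinite W
    · rintro _ ⟨τ, rfl⟩
      exact Set.mem_iUnion.mpr ⟨_, τ, rfl, rfl⟩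
  choose τ₀ hτ₀ using fun v : Set.range sys ↦ v.2
  haveI := hfin.fintype
  refine ⟨Finset.univ.image τ₀, ⟨τ₀ ⟨_, RingEquiv.refl ℂ, rfl⟩, by simp⟩, fun τ ↦
    ⟨τ₀ ⟨_, τ, rfl⟩, by simp, fun p hp hpN ↦ ?_⟩⟩
  exact (congr_fun (hτ₀ ⟨_, τ, rfl⟩) ⟨p, hp, hpN⟩).symm

/-- Every conjugate of an algebraic number is its image by an automorphism of `ℂ`. -/
lemma exists_ringEquiv_apply_eq {x y : ℂ} (hx : IsIntegral ℚ x) (hy : aeval y (minpoly ℚ x) = 0) :
    ∃ τ : ℂ ≃+* ℂ, τ x = y := by
  have hy' : IsIntegral ℚ y := ⟨minpoly ℚ x, minpoly.monic hx, hy⟩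
  have hc : IsAlgClosure ℚ (algebraicClosure ℚ ℂ) := algebraicClosure.isAlgClosure ℚ ℂ
  have : Normal ℚ (algebraicClosure ℚ ℂ) := @IsAlgClosure.normal ℚ _ _ _ _ hc
  let x' : algebraicClosure ℚ ℂ := ⟨x, hx⟩
  let y' : algebraicClosure ℚ ℂ := ⟨y, hy'⟩
  have e1 : minpoly ℚ x' = minpoly ℚ x := (IntermediateField.minpoly_eq x')
  have hy2 : aeval y' (minpoly ℚ x') = 0 := by
    apply (algebraMap (algebraicClosure ℚ ℂ) ℂ).injective
    rw [map_zero, ← aeval_algebraMap_apply, e1]
    exact hy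
  obtain ⟨σ, hσ⟩ := minpoly.exists_algEquiv_of_root' (K := ℚ)
    (Algebra.IsAlgebraic.isAlgebraic x') hy2
  obtain ⟨E, hE⟩ := exists_ringEquiv_extends (L := ℂ) σ.toRingEquiv
  refine ⟨E, ?_⟩
  have := hE x'
  rw [show σ.toRingEquiv x' = y' from hσ] at this
  exact this

/-- Algebraic integers of bounded degree with bounded conjugates are finite in number. -/
lemma finite_setOfPred_isIntegral_bounded (D : ℕ) (B : ℝ) :
    {x : ℂ | IsIntegral ℤ x ∧ (minpoly ℚ x).natDegree ≤ D ∧
      ∀ τ : ℂ ≃+* ℂ, ‖τ x‖ ≤ B}.Finite := by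
  set C := Nat.ceil (max B 1 ^ D * (D.choose (D / 2) : ℝ))
  have := bUnion_roots_finite (algebraMap ℤ ℂ) D (Set.finite_Icc (-C : ℤ) C)
  refine this.subset fun x hx ↦ ?_
  obtain ⟨hint, hdeg, hbd⟩ := hx
  have hmap := minpoly.isIntegrallyClosed_eq_field_fractions' ℚ hint
  simp only [Set.mem_iUnion]
  refine ⟨minpoly ℤ x, ⟨?_, fun i ↦ ?_⟩, ?_⟩
  · rw [← (minpoly.monic hint).natDegree_map (algebraMap ℤ ℚ), ← hmap]
    exact hdeg
  · rw [Set.mem_Icc, ← abs_le, ← @Int.cast_le ℝ]
    refine (le_of_eq_of_le ?_ (coeff_bdd_of_roots_le (algebraMap ℚ ℂ)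
      (minpoly.monic hint.tower_top) (IsAlgClosed.splits _) hdeg (fun z hz ↦ ?_) i)).trans
      (Nat.le_ceil _)
    · rw [hmap, coeff_map, coeff_map, eq_intCast, map_intCast, Complex.norm_intCast, Int.cast_abs]
    · rw [mem_roots (map_ne_zero (minpoly.ne_zero hint.tower_top)), IsRoot, eval_map,
        ← aeval_def] at hz
      obtain ⟨τ, rfl⟩ := exists_ringEquiv_apply_eq hint.tower_top hz
      exact hbd τ
  · rw [Finset.mem_coe, Multiset.mem_toFinset, mem_roots
      (((minpoly.monic hint).map _).ne_zero), IsRoot, eval_map, ← aeval_def]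
    exact minpoly.aeval ℤ x

/-- The degrees of the `a_p` are bounded. -/
theorem IsWeightOneEigen.exists_natDegree_le {ε : DirichletCharacter ℂ N}
    {f : CuspForm (Gamma1 N) 1} (hf : IsWeightOneEigen ε f) :
    ∃ D : ℕ, ∀ p : ℕ, p.Prime → ¬ p ∣ N →
      (minpoly ℚ (ModularFormClass.qCoeff f p)).natDegree ≤ D := by
  obtain ⟨T, -, hT⟩ := hf.exists_finset_conjugations
  refine ⟨T.card, fun p hp hpN ↦ ?_⟩
  set x := ModularFormClass.qCoeff f p
  have hx : IsIntegral ℚ x := (hf.isIntegral_qCoeff hp hpN).tower_top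
  rw [← card_rootSet_eq_natDegree (K := ℂ) (minpoly.irreducible hx).separable
    (IsAlgClosed.splits _)]
  refine le_trans ?_ (Finset.card_image_le (f := fun τ : ℂ ≃+* ℂ ↦ τ x))
  rw [← Set.toFinset_card]
  refine Finset.card_le_card fun y hy ↦ ?_
  rw [Set.mem_toFinset, mem_rootSet] at hy
  obtain ⟨τ, rfl⟩ := exists_ringEquiv_apply_eq hx hy.2
  obtain ⟨τ₀, hτ₀, h⟩ := hT τ
  exact Finset.mem_image.mpr ⟨τ₀, hτ₀, (h p hp hpN).symm⟩

end Fermat.Agent.DeligneSerre
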